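import Mathlib
import Fermat.Agent.S48.INT.Spec

/-!
# S48 / INT / piece ORD (helper436)

`theorem ord : INT.OrderStatement`: if all `q`-coefficients of a function satisfying the formal
Hecke relations `hT` (character `ε`, primes `p ∤ N`) lie in a finitely generated `ℤ`-submodule of
`ℂ`, then the eigenvalues `a_p` (`p ∤ N`) are algebraic integers and, together with the values of
`ε`, generate a number field.

Pure algebra on the sequence `a n`:
* `R = ℤ[ε]` is a finitely generated `ℤ`-module;
* `A = R · span_ℤ {a n | (n, N) = 1}` contains `1`, is stable under multiplication by `ε x` and by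
  `a p` (`p ∤ N`), and is contained in `R · Λ`;
* hence `B = ℤ[a_p, ε] ⊆ A` is a finitely generated `ℤ`-module.
-/

set_option autoImplicit false

namespace Fermat.Agent.S48.H436

open scoped Pointwise

/-- Values of a Dirichlet character are algebraic integers. -/
theorem isIntegral_dirichlet (N : ℕ) [NeZero N] (ε : DirichletCharacter ℂ N) (x : ZMod N) :
    IsIntegral ℤ (ε x) := by
  by_cases hx : IsUnit x
  · obtain ⟨u, rfl⟩ := hx
    have hpos : 0 < Fintype.card (ZMod N)ˣ := Fintype.card_pos
    refine IsIntegral.of_pow hpos ?_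
    have h1 : ε (u : ZMod N) ^ Fintype.card (ZMod N)ˣ = 1 := by
      rw [← map_pow, ← Units.val_pow_eq_pow_val, pow_card_eq_one, Units.val_one, map_one]
    rw [h1]
    exact isIntegral_one
  · rw [MulChar.map_nonunit ε hx]
    exact isIntegral_zero

/-- The generating set: eigenvalues `a p` (`p ∤ N` prime) and values of `ε`. -/
def genSet (N : ℕ) (ε : DirichletCharacter ℂ N) (a : ℕ → ℂ) : Set ℂ :=
  {x : ℂ | ∃ p : ℕ, p.Prime ∧ ¬ p ∣ N ∧ x = a p} ∪ Set.range fun x : ZMod N => ε x

/-- Core of ORD: the ring `ℤ[a_p, ε]` is a finitely generated `ℤ`-module. -/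
theorem fg_adjoin_genSet (N : ℕ) [NeZero N] (ε : DirichletCharacter ℂ N) (a : ℕ → ℂ)
    (h1 : a 1 = 1)
    (hT : ∀ p : ℕ, p.Prime → ¬ p ∣ N → ∀ n : ℕ,
      a (p * n) + ε (p : ZMod N) * (if p ∣ n then a (n / p) else 0) = a p * a n)
    (Λ : Submodule ℤ ℂ) (hΛ : Λ.FG) (ha : ∀ n, a n ∈ Λ) :
    (Algebra.adjoin ℤ (genSet N ε a)).toSubmodule.FG := by
  classical
  -- the coefficient ring `R = ℤ[ε]`
  set E : Set ℂ := Set.range fun x : ZMod N => ε x with hE
  set R : Subalgebra ℤ ℂ := Algebra.adjoin ℤ E with hR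
  have hRfg : R.toSubmodule.FG :=
    fg_adjoin_of_finite (Set.finite_range _) (by
      rintro _ ⟨x, rfl⟩
      exact isIntegral_dirichlet N ε x)
  have hεR : ∀ x : ZMod N, ε x ∈ R.toSubmodule := fun x =>
    Algebra.subset_adjoin ⟨x, rfl⟩
  have h1R : (1 : ℂ) ∈ R.toSubmodule := R.one_mem
  -- the span of the coefficients of index prime to `N`
  set L : Submodule ℤ ℂ := Submodule.span ℤ (a '' {n : ℕ | n.Coprime N}) with hL
  have hLΛ : L ≤ Λ := by
    rw [hL, Submodule.span_le]
    rintro _ ⟨n, -, rfl⟩
    exact ha n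
  have haL : ∀ n : ℕ, n.Coprime N → a n ∈ L := fun n hn =>
    Submodule.subset_span ⟨n, hn, rfl⟩
  set A : Submodule ℤ ℂ := R.toSubmodule * L with hA
  have hAfg : (R.toSubmodule * Λ).FG := hRfg.mul hΛ
  have hAle : A ≤ R.toSubmodule * Λ :=
    Submodule.mul_le.2 fun r hr l hl => Submodule.mul_mem_mul hr (hLΛ hl)
  -- `R · A ⊆ A`
  have hRA : ∀ r ∈ R.toSubmodule, ∀ y ∈ A, r * y ∈ A := by
    intro r hr y hy
    have : r * y ∈ R.toSubmodule * (R.toSubmodule * L) := Submodule.mul_mem_mul hr hy
    rwa [← mul_assoc, (Subalgebra.isIdempotentElem_toSubmodule R).eq] at this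
  have h1A : (1 : ℂ) ∈ A := by
    have : (1 : ℂ) * a 1 ∈ R.toSubmodule * L :=
      Submodule.mul_mem_mul h1R (haL 1 (Nat.coprime_one_left N))
    rwa [h1, mul_one] at this
  -- `a p · L ⊆ A`
  have hpL : ∀ p : ℕ, p.Prime → ¬ p ∣ N → ∀ l ∈ L, a p * l ∈ A := by
    intro p hp hpN l hl
    have hpc : p.Coprime N := (Nat.Prime.coprime_iff_not_dvd hp).2 hpN
    induction hl using Submodule.span_induction with
    | mem x hx =>
      obtain ⟨n, hn, rfl⟩ := hx
      have hrel := hT p hp hpN n
      have hpn : (p * n).Coprime N := Nat.Coprime.mul_left hpc hn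
      have h1' : a (p * n) ∈ A := by
        have : (1 : ℂ) * a (p * n) ∈ R.toSubmodule * L :=
          Submodule.mul_mem_mul h1R (haL _ hpn)
        rwa [one_mul] at this
      have h2' : ε (p : ZMod N) * (if p ∣ n then a (n / p) else 0) ∈ A := by
        split_ifs with hdvd
        · have hnp : (n / p).Coprime N :=
            Nat.Coprime.coprime_dvd_left (Nat.div_dvd_of_dvd hdvd) hn
          exact Submodule.mul_mem_mul (hεR _) (haL _ hnp)
        · rw [mul_zero]
          exact A.zero_mem
      rw [← hrel]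
      exact A.add_mem h1' h2'
    | zero => rw [mul_zero]; exact A.zero_mem
    | add x y _ _ hx hy => rw [mul_add]; exact A.add_mem hx hy
    | smul c x _ hx =>
      rw [mul_smul_comm]
      exact A.smul_mem c hx
  -- `a p · A ⊆ A`
  have hpA : ∀ p : ℕ, p.Prime → ¬ p ∣ N → ∀ y ∈ A, a p * y ∈ A := by
    intro p hp hpN y hy
    refine Submodule.mul_induction_on hy ?_ ?_
    · intro r hr l hl
      have : a p * (r * l) = r * (a p * l) := by ring
      rw [this]
      exact hRA r hr _ (hpL p hp hpN l hl)
    · intro x y hx hy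
      rw [mul_add]
      exact A.add_mem hx hy
  -- every element of `B` maps `A` into `A`
  have hB : ∀ x ∈ Algebra.adjoin ℤ (genSet N ε a), ∀ y ∈ A, x * y ∈ A := by
    intro x hx
    induction hx using Algebra.adjoin_induction with
    | mem x hx =>
      rcases hx with ⟨p, hp, hpN, rfl⟩ | ⟨z, rfl⟩
      · exact hpA p hp hpN
      · exact fun y hy => hRA _ (hεR z) y hy
    | algebraMap r =>
      intro y hy
      have : (algebraMap ℤ ℂ r) * y = r • y := by
        rw [Algebra.smul_def]
      rw [this]
      exact A.smul_mem r hy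
    | add x y _ _ hx hy =>
      intro z hz
      rw [add_mul]
      exact A.add_mem (hx z hz) (hy z hz)
    | mul x y _ _ hx hy =>
      intro z hz
      rw [mul_assoc]
      exact hx _ (hy z hz)
  have hBA : (Algebra.adjoin ℤ (genSet N ε a)).toSubmodule ≤ A := by
    intro x hx
    have := hB x hx 1 h1A
    rwa [mul_one] at this
  exact Submodule.FG.of_le hAfg (hBA.trans hAle)

/-- Piece ORD of INT. -/
theorem ord : Fermat.Agent.S48.INT.OrderStatement := by
  intro N _ ε f hf hΛ
  obtain ⟨Λ, hΛfg, hΛmem⟩ := hΛ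
  obtain ⟨h1, hT⟩ := hf
  have hfg := fg_adjoin_genSet N ε (fun n => ModularFormClass.qCoeff f n) h1 hT Λ hΛfg hΛmem
  set S : Set ℂ := genSet N ε (fun n => ModularFormClass.qCoeff f n) with hS
  set B : Subalgebra ℤ ℂ := Algebra.adjoin ℤ S with hB
  have hint : ∀ x ∈ B, IsIntegral ℤ x := fun x hx => IsIntegral.of_mem_of_fg B hfg x hx
  refine ⟨?_, ?_⟩
  · -- finite dimensionality
    obtain ⟨T, hT'⟩ := hfg
    have hTB : ∀ t ∈ (T : Set ℂ), t ∈ B := by
      intro t ht
      have : t ∈ Submodule.span ℤ (T : Set ℂ) := Submodule.subset_span ht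
      rw [hT'] at this
      exact this
    have hTint : ∀ t ∈ (T : Set ℂ), IsIntegral ℚ t := fun t ht =>
      (hint t (hTB t ht)).tower_top
    have : Finite (T : Set ℂ) := T.finite_toSet
    have hfd : FiniteDimensional ℚ (IntermediateField.adjoin ℚ (T : Set ℂ)) :=
      IntermediateField.finiteDimensional_adjoin hTint
    have hle : Fermat.Agent.S48.INT.eigenField N ε f ≤ IntermediateField.adjoin ℚ (T : Set ℂ) := by
      unfold Fermat.Agent.S48.INT.eigenField
      rw [IntermediateField.adjoin_le_iff]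
      intro s hs
      have hsB : s ∈ B := Algebra.subset_adjoin hs
      have hsT : s ∈ Submodule.span ℤ (T : Set ℂ) := by
        rw [hT']
        exact hsB
      -- integer combinations of `T` lie in the field generated by `T`
      have hsub : Submodule.span ℤ (T : Set ℂ) ≤
          ((IntermediateField.adjoin ℚ (T : Set ℂ)).toSubalgebra.toSubmodule.restrictScalars ℤ) := by
        rw [Submodule.span_le]
        intro t ht
        exact IntermediateField.subset_adjoin ℚ _ ht
      exact hsub hsT
    exact Module.Finite.of_injective (IntermediateField.inclusion hle).toLinearMap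
      (IntermediateField.inclusion_injective hle)
  · intro p hp hpN
    exact hint _ (Algebra.subset_adjoin (Or.inl ⟨p, hp, hpN, rfl⟩))

end Fermat.Agent.S48.H436
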